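import Fermat.Agent.S55.Local.Spec

/-!
# S55, layer L, pieces FF1a / FF1b (helper169)

Additive `H¹` and `H²` of a finite Galois extension vanish (contracting homotopy from an element
of trace one).

* `Fermat.Agent.S55.Local.H169.addH1 : Fermat.Agent.S55.Local.AddH1Statement`
* `Fermat.Agent.S55.Local.H169.addH2 : Fermat.Agent.S55.Local.AddH2Statement`
-/

set_option autoImplicit false

namespace Fermat.Agent.S55.Local.H169

open groupCohomology

section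

variable {k l : Type} [Field k] [Field l] [Algebra k l] [FiniteDimensional k l] [IsGalois k l]

/-- An element of trace one, in the form `∑ σ, σ θ = 1`. -/
theorem exists_sum_aut_eq_one : ∃ θ : l, ∑ σ : l ≃ₐ[k] l, σ θ = 1 := by
  obtain ⟨θ, hθ⟩ := Algebra.trace_surjective k l 1
  refine ⟨θ, ?_⟩
  rw [← trace_eq_sum_automorphisms (K := k) (L := l) θ, hθ, map_one]

omit [IsGalois k l] in
/-- Reindexing the sum over the group by left translation. -/
theorem sum_mul_left_aut (g : l ≃ₐ[k] l) (f : (l ≃ₐ[k] l) → l) :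
    ∑ σ : l ≃ₐ[k] l, f (g * σ) = ∑ σ : l ≃ₐ[k] l, f σ :=
  Fintype.sum_equiv (Equiv.mulLeft g) _ _ (fun _ => rfl)

end

/-- **FF1a**: additive `H¹` of a finite Galois extension vanishes. -/
theorem addH1 : Fermat.Agent.S55.Local.AddH1Statement := by
  intro k l _ _ _ _ _ c hc
  obtain ⟨θ, hθ⟩ := exists_sum_aut_eq_one (k := k) (l := l)
  refine ⟨-∑ τ : l ≃ₐ[k] l, τ θ * c τ, fun g => ?_⟩
  have h1 : g • (-∑ τ : l ≃ₐ[k] l, τ θ * c τ) = -∑ τ : l ≃ₐ[k] l, (g * τ) θ * (g • c τ) := by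
    rw [AlgEquiv.smul_def, map_neg, map_sum]
    congr 1
    refine Finset.sum_congr rfl fun τ _ => ?_
    rw [map_mul, AlgEquiv.smul_def, AlgEquiv.mul_apply]
  have h2 : ∑ τ : l ≃ₐ[k] l, (g * τ) θ * (g • c τ)
      = ∑ τ : l ≃ₐ[k] l, (g * τ) θ * c (g * τ) - c g * ∑ τ : l ≃ₐ[k] l, (g * τ) θ := by
    rw [Finset.mul_sum, ← Finset.sum_sub_distrib]
    refine Finset.sum_congr rfl fun τ _ => ?_
    rw [hc g τ]
    ring
  have h3 : ∑ τ : l ≃ₐ[k] l, (g * τ) θ * c (g * τ) = ∑ τ : l ≃ₐ[k] l, τ θ * c τ :=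
    sum_mul_left_aut g (fun σ => σ θ * c σ)
  have h4 : ∑ τ : l ≃ₐ[k] l, (g * τ) θ = 1 := by
    rw [sum_mul_left_aut g (fun σ => σ θ), hθ]
  rw [h1, h2, h3, h4]
  ring

/-- **FF1b**: additive `H²` of a finite Galois extension vanishes. -/
theorem addH2 : Fermat.Agent.S55.Local.AddH2Statement := by
  intro k l _ _ _ _ _ c hc
  obtain ⟨θ, hθ⟩ := exists_sum_aut_eq_one (k := k) (l := l)
  refine ⟨fun g => ∑ τ : l ≃ₐ[k] l, (g * τ) θ * c (g, τ), fun g h => ?_⟩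
  have h1 : g • (∑ τ : l ≃ₐ[k] l, (h * τ) θ * c (h, τ))
      = ∑ τ : l ≃ₐ[k] l, (g * h * τ) θ * (g • c (h, τ)) := by
    rw [AlgEquiv.smul_def, map_sum]
    refine Finset.sum_congr rfl fun τ _ => ?_
    rw [map_mul, AlgEquiv.smul_def, mul_assoc g h τ, AlgEquiv.mul_apply g (h * τ)]
  have h3 : ∑ τ : l ≃ₐ[k] l, (g * τ) θ * c (g, τ)
      = ∑ τ : l ≃ₐ[k] l, (g * h * τ) θ * c (g, h * τ) := by
    rw [← sum_mul_left_aut h (fun σ => (g * σ) θ * c (g, σ))]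
    refine Finset.sum_congr rfl fun τ _ => ?_
    rw [mul_assoc]
  have h4 : ∑ τ : l ≃ₐ[k] l, (g * h * τ) θ = 1 := by
    rw [sum_mul_left_aut (g * h) (fun σ => σ θ), hθ]
  have key : ∀ τ : l ≃ₐ[k] l,
      (g * h * τ) θ * (g • c (h, τ)) - (g * h * τ) θ * c (g * h, τ)
        + (g * h * τ) θ * c (g, h * τ) = (g * h * τ) θ * c (g, h) := by
    intro τ
    have := hc g h τ
    linear_combination (-(g * h * τ) θ) * this
  calc g • (∑ τ : l ≃ₐ[k] l, (h * τ) θ * c (h, τ))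
        - ∑ τ : l ≃ₐ[k] l, (g * h * τ) θ * c (g * h, τ)
        + ∑ τ : l ≃ₐ[k] l, (g * τ) θ * c (g, τ)
      = ∑ τ : l ≃ₐ[k] l, ((g * h * τ) θ * (g • c (h, τ)) - (g * h * τ) θ * c (g * h, τ)
          + (g * h * τ) θ * c (g, h * τ)) := by
        rw [h1, h3, Finset.sum_add_distrib, Finset.sum_sub_distrib]
    _ = ∑ τ : l ≃ₐ[k] l, (g * h * τ) θ * c (g, h) := Finset.sum_congr rfl fun τ _ => key τ
    _ = c (g, h) := by rw [← Finset.sum_mul, h4, one_mul]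

end Fermat.Agent.S55.Local.H169
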